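import Fermat.Agent.S53.Good
import Fermat.Agent.S53.H85.MatDict
import Fermat.Agent.S53.H96.TestAlg

/-!
# S53, package H2: gluing for the functor `F` of good lifts

`F_glue`: if `C → A × B` is a jointly injective pair of maps of Artinian test algebras and the
images of a family `z : XX → C` are good lifts over `A` and `B`, then `z` is a good lift over `C`.
-/

set_option autoImplicit false

namespace Fermat.Agent.S53.H74

open IsLocalRing Fermat.Agent.S53

section Bridge

variable {A : Type} [CommRing A] [IsLocalRing A]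

/-- Continuity is preserved by local homomorphisms (M0 for the shared `Defs`). -/
theorem matCont_mapMat {B : Type} [CommRing B] [IsLocalRing B] (φ : A →+* B)
    (hφ : IsLocalHom φ) {r : GQ →* M2 A} (hr : MatCont r) : MatCont (mapMat φ r) :=
  H85.MatContinuous.map hr φ hφ

/-- Base change of `ofMat` is `ofMat` of the pushed-forward matrices (M2 for the shared `Defs`). -/
theorem baseChangeAlong_ofMat_isEquiv {B : Type} [CommRing B] [IsLocalRing B] (φ : A →+* B)
    (hφ : IsLocalHom φ) {r : GQ →* M2 A} (hr : MatCont r) (hr' : MatCont (mapMat φ r)) :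
    ((ofMat r hr).baseChangeAlong φ hφ).IsEquiv (ofMat (mapMat φ r) hr') :=
  H85.baseChangeAlong_ofMat hr φ hφ

/-- Transport of a condition along an equality of matrix representations. -/
theorem cond_congr {Q : GaloisRepAdic A → Prop} {r r' : GQ →* M2 A} (h : r = r')
    (hr : MatCont r) (hr' : MatCont r') (hc : Q (ofMat r hr)) : Q (ofMat r' hr') := by
  subst h
  exact hc

end Bridge

/-- A ring is the fibre product of its quotients by two ideals over the quotient by their sum. -/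
theorem exists_of_factor_eq {C : Type} [CommRing C] (I J : Ideal C) (a : C ⧸ I) (b : C ⧸ J)
    (h : Ideal.Quotient.factor (le_sup_left : I ≤ I ⊔ J) a =
      Ideal.Quotient.factor (le_sup_right : J ≤ I ⊔ J) b) :
    ∃ x : C, Ideal.Quotient.mk I x = a ∧ Ideal.Quotient.mk J x = b := by
  obtain ⟨x1, rfl⟩ := Ideal.Quotient.mk_surjective a
  obtain ⟨x2, rfl⟩ := Ideal.Quotient.mk_surjective b
  rw [Ideal.Quotient.factor_mk, Ideal.Quotient.factor_mk, Ideal.Quotient.eq] at h
  obtain ⟨i, hi, j, hj, hij⟩ := Submodule.mem_sup.mp h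
  refine ⟨x1 - i, ?_, ?_⟩
  · rw [Ideal.Quotient.eq]
    have : x1 - i - x1 = -i := by ring
    rw [this]
    exact I.neg_mem hi
  · rw [Ideal.Quotient.eq]
    have : x1 - i - x2 = j := by linear_combination -hij
    rw [this]
    exact hj

section Glue

variable {𝒪 : Type} [CommRing 𝒪] [IsLocalRing 𝒪]
  {𝒟 : ∀ ⦃A : Type⦄ [CommRing A] [IsLocalRing A] [Algebra 𝒪 A], GaloisRepAdic A → Prop}
  {γ : Gauge 𝒪}

/-- The kernel of a local homomorphism is contained in the maximal ideal. -/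
theorem ker_le_maximalIdeal {C A : Type} [CommRing C] [IsLocalRing C] [CommRing A] [IsLocalRing A]
    (p : C →+* A) : RingHom.ker p ≤ maximalIdeal C := by
  intro x hx
  rw [mem_maximalIdeal, mem_nonunits_iff]
  intro hu
  have h1 := hu.map p
  rw [RingHom.mem_ker.mp hx] at h1
  exact not_isUnit_zero h1

/-- One half of the type-`𝒟` part of gluing: `𝒟` for the push-forward of `rC` to `C ⧸ ker p`,
given `𝒟` over the target of `p`. -/
theorem cond_quotient_ker (h𝒟 : GaloisRep.IsDeformationCondition 𝒪 𝒟)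
    (A C : Type) [CommRing A] [IsLocalRing A] [Algebra 𝒪 A]
    [CommRing C] [IsLocalRing C] [Algebra 𝒪 C]
    (hA : GaloisRep.IsArtinianTestAlgebra 𝒪 A)
    (p : C →ₐ[𝒪] A) [IsLocalRing (C ⧸ RingHom.ker p)]
    (tI : GaloisRep.IsArtinianTestAlgebra 𝒪 (C ⧸ RingHom.ker p))
    (hq : IsLocalHom ((Ideal.Quotient.mkₐ 𝒪 (RingHom.ker p) : C →ₐ[𝒪] C ⧸ RingHom.ker p) :
      C →+* C ⧸ RingHom.ker p))
    (rC : GQ →* M2 C) (hcont : MatCont rC)
    (hcontA : MatCont (mapMat (p : C →+* A) rC))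
    (hcond : 𝒟 (ofMat (mapMat (p : C →+* A) rC) hcontA)) :
    𝒟 ((ofMat rC hcont).baseChangeAlong
      ((Ideal.Quotient.mkₐ 𝒪 (RingHom.ker p) : C →ₐ[𝒪] C ⧸ RingHom.ker p) :
        C →+* C ⧸ RingHom.ker p) hq) := by
  set q : C →ₐ[𝒪] C ⧸ RingHom.ker p := Ideal.Quotient.mkₐ 𝒪 (RingHom.ker p) with hqdef
  let ι : C ⧸ RingHom.ker p →ₐ[𝒪] A := Ideal.kerLiftAlg p
  have hι : IsLocalHom (ι : C ⧸ RingHom.ker p →+* A) :=
    H96.isLocalHom_of_residue_surjective hA.residue_surjective ι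
  have hιinj : Function.Injective ι := Ideal.kerLiftAlg_injective p
  have hc1 : MatCont (mapMat (q : C →+* C ⧸ RingHom.ker p) rC) := matCont_mapMat _ hq hcont
  have hc2 : MatCont (mapMat (ι : C ⧸ RingHom.ker p →+* A)
      (mapMat (q : C →+* C ⧸ RingHom.ker p) rC)) := matCont_mapMat _ hι hc1
  have hcomp : mapMat (p : C →+* A) rC = mapMat (ι : C ⧸ RingHom.ker p →+* A)
      (mapMat (q : C →+* C ⧸ RingHom.ker p) rC) := by
    refine MonoidHom.ext fun σ => ?_
    ext i j
    rw [mapMat_apply, mapMat_apply, mapMat_apply]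
    rfl
  have d1 : 𝒟 (ofMat (mapMat (ι : C ⧸ RingHom.ker p →+* A)
      (mapMat (q : C →+* C ⧸ RingHom.ker p) rC)) hc2) :=
    cond_congr (Q := fun ρ => 𝒟 ρ) hcomp hcontA hc2 hcond
  have e1 := baseChangeAlong_ofMat_isEquiv (ι : C ⧸ RingHom.ker p →+* A) hι hc1 hc2
  have d2 : 𝒟 ((ofMat (mapMat (q : C →+* C ⧸ RingHom.ker p) rC) hc1).baseChangeAlong
      (ι : C ⧸ RingHom.ker p →+* A) hι) :=
    h𝒟.of_isEquiv hA (e1.map GaloisRepAdic.Equiv.symm) d1
  have d3 : 𝒟 (ofMat (mapMat (q : C →+* C ⧸ RingHom.ker p) rC) hc1) :=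
    h𝒟.of_baseChangeAlong_injective tI hA ι hι hιinj d2
  have e2 := baseChangeAlong_ofMat_isEquiv (q : C →+* C ⧸ RingHom.ker p) hq hcont hc1
  exact h𝒟.of_isEquiv tI (e2.map GaloisRepAdic.Equiv.symm) d3

/-- H2 (glue), general form (`𝒪` any local ring). -/
theorem F_glue' (h𝒟 : GaloisRep.IsDeformationCondition 𝒪 𝒟)
    (A B C : Type) [CommRing A] [IsLocalRing A] [Algebra 𝒪 A]
    [CommRing B] [IsLocalRing B] [Algebra 𝒪 B] [CommRing C] [IsLocalRing C] [Algebra 𝒪 C]
    (hA : GaloisRep.IsArtinianTestAlgebra 𝒪 A) (hB : GaloisRep.IsArtinianTestAlgebra 𝒪 B)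
    (hC : GaloisRep.IsArtinianTestAlgebra 𝒪 C)
    (pA : C →ₐ[𝒪] A) (pB : C →ₐ[𝒪] B) (hinj : Function.Injective (fun c => (pA c, pB c)))
    (z : XX → C) (hzA : (fun i => pA (z i)) ∈ F 𝒟 γ A) (hzB : (fun i => pB (z i)) ∈ F 𝒟 γ B) :
    z ∈ F 𝒟 γ C := by
  obtain ⟨rA, hrA, gA⟩ := hzA
  obtain ⟨rB, hrB, gB⟩ := hzB
  have hpA : IsLocalHom (pA : C →+* A) :=
    H96.isLocalHom_of_residue_surjective hA.residue_surjective pA
  have hpB : IsLocalHom (pB : C →+* B) :=
    H96.isLocalHom_of_residue_surjective hB.residue_surjective pB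
  have hext : ∀ c c' : C, pA c = pA c' → pB c = pB c' → c = c' :=
    fun c c' h1 h2 => hinj (Prod.ext h1 h2)
  -- the matrices over `C`
  let m : GQ → M2 C := fun σ => Matrix.of fun i j => z (σ, i, j)
  have hmA : ∀ σ, (pA : C →+* A).mapMatrix (m σ) = rA σ := by
    intro σ
    ext i j
    rw [hrA σ i j]
    rfl
  have hmB : ∀ σ, (pB : C →+* B).mapMatrix (m σ) = rB σ := by
    intro σ
    ext i j
    rw [hrB σ i j]
    rfl
  have hmext : ∀ M M' : M2 C, (pA : C →+* A).mapMatrix M = (pA : C →+* A).mapMatrix M' →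
      (pB : C →+* B).mapMatrix M = (pB : C →+* B).mapMatrix M' → M = M' := by
    intro M M' h1 h2
    ext i j
    exact hext _ _ (congrFun (congrFun h1 i) j) (congrFun (congrFun h2 i) j)
  let rC : GQ →* M2 C :=
    { toFun := m
      map_one' := by
        apply hmext
        · rw [hmA, map_one, map_one]
        · rw [hmB, map_one, map_one]
      map_mul' := fun σ τ => by
        apply hmext
        · rw [map_mul, hmA, hmA, hmA, map_mul]
        · rw [map_mul, hmB, hmB, hmB, map_mul] }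
  have hrC : ∀ σ i j, rC σ i j = z (σ, i, j) := fun σ i j => rfl
  have hmapA : mapMat (pA : C →+* A) rC = rA := MonoidHom.ext fun σ => hmA σ
  have hmapB : mapMat (pB : C →+* B) rC = rB := MonoidHom.ext fun σ => hmB σ
  have hentA : ∀ σ i j, pA (rC σ i j) = rA σ i j := fun σ i j => (hrA σ i j).symm
  have hentB : ∀ σ i j, pB (rC σ i j) = rB σ i j := fun σ i j => (hrB σ i j).symm
  -- continuity
  have hcont : MatCont rC := by
    intro n
    obtain ⟨NA, hNA⟩ := H96.testAlg_exists_pow_eq_bot hA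
    obtain ⟨NB, hNB⟩ := H96.testAlg_exists_pow_eq_bot hB
    obtain ⟨LA, hLA, hA'⟩ := gA.cont NA
    obtain ⟨LB, hLB, hB'⟩ := gB.cont NB
    have := hLA
    have := hLB
    refine ⟨LA ⊔ LB, IntermediateField.finiteDimensional_sup LA LB, fun σ hσ i j => ?_⟩
    have h1 : rA σ = 1 := by
      ext i j
      have h := hA' σ (fun x hx => hσ x ((le_sup_left : LA ≤ LA ⊔ LB) hx)) i j
      rw [hNA, Ideal.mem_bot] at h
      exact sub_eq_zero.mp h
    have h2 : rB σ = 1 := by
      ext i j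
      have h := hB' σ (fun x hx => hσ x ((le_sup_right : LB ≤ LA ⊔ LB) hx)) i j
      rw [hNB, Ideal.mem_bot] at h
      exact sub_eq_zero.mp h
    have h3 : rC σ = 1 := by
      apply hmext
      · rw [map_one]
        exact (hmA σ).trans h1
      · rw [map_one]
        exact (hmB σ).trans h2
    rw [h3, sub_self]
    exact Ideal.zero_mem _
  -- the condition `𝒟`
  have hcond : 𝒟 (ofMat rC hcont) := by
    have hIm : RingHom.ker pA ≤ maximalIdeal C := ker_le_maximalIdeal (pA : C →+* A)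
    have hJm : RingHom.ker pB ≤ maximalIdeal C := ker_le_maximalIdeal (pB : C →+* B)
    have hIJm : RingHom.ker pA ⊔ RingHom.ker pB ≤ maximalIdeal C := sup_le hIm hJm
    have hne : ∀ K : Ideal C, K ≤ maximalIdeal C → K ≠ ⊤ := fun K hK h =>
      (maximalIdeal.isMaximal C).ne_top (top_le_iff.mp (h ▸ hK))
    have : IsLocalRing (C ⧸ RingHom.ker pA) := H96.isLocalRing_quotient (hne _ hIm)
    have : IsLocalRing (C ⧸ RingHom.ker pB) := H96.isLocalRing_quotient (hne _ hJm)
    have : IsLocalRing (C ⧸ (RingHom.ker pA ⊔ RingHom.ker pB)) :=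
      H96.isLocalRing_quotient (hne _ hIJm)
    have : IsArtinianRing C := hC.isArtinian
    have : IsNoetherianRing C := inferInstance
    obtain ⟨N, hN⟩ := H96.testAlg_exists_pow_eq_bot hC
    have tI : GaloisRep.IsArtinianTestAlgebra 𝒪 (C ⧸ RingHom.ker pA) :=
      H96.testAlg_quotient hC.isLocalHom hC.residue_surjective _ (n := N) (hN ▸ bot_le)
    have tJ : GaloisRep.IsArtinianTestAlgebra 𝒪 (C ⧸ RingHom.ker pB) :=
      H96.testAlg_quotient hC.isLocalHom hC.residue_surjective _ (n := N) (hN ▸ bot_le)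
    have tIJ : GaloisRep.IsArtinianTestAlgebra 𝒪 (C ⧸ (RingHom.ker pA ⊔ RingHom.ker pB)) :=
      H96.testAlg_quotient hC.isLocalHom hC.residue_surjective _ (n := N) (hN ▸ bot_le)
    have hqI : IsLocalHom ((Ideal.Quotient.mkₐ 𝒪 (RingHom.ker pA) :
        C →ₐ[𝒪] C ⧸ RingHom.ker pA) : C →+* C ⧸ RingHom.ker pA) :=
      H96.isLocalHom_of_residue_surjective tI.residue_surjective _
    have hqJ : IsLocalHom ((Ideal.Quotient.mkₐ 𝒪 (RingHom.ker pB) :
        C →ₐ[𝒪] C ⧸ RingHom.ker pB) : C →+* C ⧸ RingHom.ker pB) :=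
      H96.isLocalHom_of_residue_surjective tJ.residue_surjective _
    refine h𝒟.of_fibreProduct tI tJ tIJ hC
      (Ideal.Quotient.factorₐ 𝒪 (le_sup_left : RingHom.ker pA ≤ RingHom.ker pA ⊔ RingHom.ker pB))
      (Ideal.Quotient.factorₐ 𝒪 (le_sup_right : RingHom.ker pB ≤ RingHom.ker pA ⊔ RingHom.ker pB))
      (Ideal.Quotient.mkₐ 𝒪 (RingHom.ker pA)) (Ideal.Quotient.mkₐ 𝒪 (RingHom.ker pB))
      hqI hqJ ?_ ?_ ?_ ?_ ?_
    · ext x
      rfl
    · intro x y hxy
      have h1 : Ideal.Quotient.mk (RingHom.ker pA) x = Ideal.Quotient.mk (RingHom.ker pA) y :=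
        congrArg Prod.fst hxy
      have h2 : Ideal.Quotient.mk (RingHom.ker pB) x = Ideal.Quotient.mk (RingHom.ker pB) y :=
        congrArg Prod.snd hxy
      rw [Ideal.Quotient.eq, RingHom.mem_ker, map_sub, sub_eq_zero] at h1 h2
      exact hext x y h1 h2
    · intro a b hab
      exact exists_of_factor_eq _ _ a b hab
    · exact cond_quotient_ker h𝒟 A C hA pA tI hqI rC hcont (hmapA ▸ gA.cont)
        (cond_congr (Q := fun ρ => 𝒟 ρ) hmapA.symm gA.cont _ gA.cond)
    · exact cond_quotient_ker h𝒟 B C hB pB tJ hqJ rC hcont (hmapB ▸ gB.cont)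
        (cond_congr (Q := fun ρ => 𝒟 ρ) hmapB.symm gB.cont _ gB.cond)
  refine ⟨rC, hrC, ?_⟩
  refine
    { lift := ?_
      g00 := ?_
      g10 := ?_
      gij := ?_
      cont := hcont
      cond := hcond }
  · intro σ i j
    rw [mem_maximalIdeal, mem_nonunits_iff]
    intro hu
    have h1 := gA.lift σ i j
    rw [mem_maximalIdeal, mem_nonunits_iff] at h1
    apply h1
    have h2 := hu.map (pA : C →+* A)
    have h3 : (pA : C →+* A) (rC σ i j - algebraMap 𝒪 C (γ.rt σ i j)) =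
        rA σ i j - algebraMap 𝒪 A (γ.rt σ i j) := by
      rw [map_sub]
      congr 1
      · exact hentA σ i j
      · exact pA.commutes _
    rwa [h3] at h2
  · apply hext
    · rw [hentA, gA.g00, map_zero]
    · rw [hentB, gB.g00, map_zero]
  · apply hext
    · rw [hentA, gA.g10, map_one]
    · rw [hentB, gB.g10, map_one]
  · apply hext
    · rw [hentA, gA.gij, AlgHom.commutes]
    · rw [hentB, gB.gij, AlgHom.commutes]

end Glue

section Exact

set_option linter.unusedSectionVars false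

variable {𝒪 : Type} [CommRing 𝒪] [IsDomain 𝒪] [IsDiscreteValuationRing 𝒪]
  [IsAdicComplete (maximalIdeal 𝒪) 𝒪] [Finite (ResidueField 𝒪)]
  {𝒟 : ∀ ⦃A : Type⦄ [CommRing A] [IsLocalRing A] [Algebra 𝒪 A], GaloisRepAdic A → Prop}
  {γ : Gauge 𝒪}

/-- H2 (glue), with the exact signature of `Plan.F_glue`. -/
theorem F_glue (h𝒟 : GaloisRep.IsDeformationCondition 𝒪 𝒟)
    (A B C : Type) [CommRing A] [IsLocalRing A] [Algebra 𝒪 A]
    [CommRing B] [IsLocalRing B] [Algebra 𝒪 B] [CommRing C] [IsLocalRing C] [Algebra 𝒪 C]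
    (hA : GaloisRep.IsArtinianTestAlgebra 𝒪 A) (hB : GaloisRep.IsArtinianTestAlgebra 𝒪 B)
    (hC : GaloisRep.IsArtinianTestAlgebra 𝒪 C)
    (pA : C →ₐ[𝒪] A) (pB : C →ₐ[𝒪] B) (hinj : Function.Injective (fun c => (pA c, pB c)))
    (z : XX → C) (hzA : (fun i => pA (z i)) ∈ F 𝒟 γ A) (hzB : (fun i => pB (z i)) ∈ F 𝒟 γ B) :
    z ∈ F 𝒟 γ C :=
  F_glue' h𝒟 A B C hA hB hC pA pB hinj z hzA hzB

end Exact

end Fermat.Agent.S53.H74
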